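import Mathlib
import Fermat.Agent.S05.H65.AddVal

/-!
# Lib/MultRed/Comp/Half: pairing `P ↔ -P` in a finite sum; valuations of finite sums

* `exists_half_pt`: for a finite set `S` closed under negation without points of order `≤ 2` and
  `P₁ ∈ S` there is `T ⊆ S ∖ {P₁, -P₁}` with `∑_S f = 2 (f P₁ + ∑_T f)` for every even `f`.
* `ge_sum`, `ge_natCast`: valuations of finite sums and of natural numbers.
Owner: helper45 (cluster E', seat E-L / L1).
-/

set_option autoImplicit false

namespace Fermat.Agent.MultRed.Comp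

open S05H65

section Half

variable {G : Type*} [AddGroup G] [DecidableEq G] {K : Type*} [AddCommMonoid K]

/-- removing a pair `{P, -P}` keeps the set closed under negation -/
lemma erase_pair_neg_mem (S : Finset G) (hneg : ∀ P ∈ S, -P ∈ S) (P₁ : G) :
    ∀ P ∈ (S.erase P₁).erase (-P₁), -P ∈ (S.erase P₁).erase (-P₁) := by
  intro P hP
  rw [Finset.mem_erase, Finset.mem_erase] at hP ⊢
  obtain ⟨h1, h2, h3⟩ := hP
  refine ⟨fun h => h2 (neg_injective h), fun h => h1 ?_, hneg P h3⟩
  rw [← h, neg_neg]

/-- splitting off a pair `{P, -P}` from the sum of an even function -/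
lemma sum_erase_pair (S : Finset G) (hneg : ∀ P ∈ S, -P ∈ S) (hne : ∀ P ∈ S, -P ≠ P)
    {P₁ : G} (hP₁ : P₁ ∈ S) (f : G → K) (hf : ∀ P, f (-P) = f P) :
    ∑ P ∈ S, f P = f P₁ + f P₁ + ∑ P ∈ (S.erase P₁).erase (-P₁), f P := by
  have h1 : -P₁ ∈ S.erase P₁ := Finset.mem_erase.mpr ⟨hne P₁ hP₁, hneg P₁ hP₁⟩
  rw [← Finset.add_sum_erase S f hP₁, ← Finset.add_sum_erase (S.erase P₁) f h1, hf, add_assoc]

/-- a half-system of a finite set closed under negation without fixed points -/
theorem exists_half (S : Finset G) (hneg : ∀ P ∈ S, -P ∈ S) (hne : ∀ P ∈ S, -P ≠ P) :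
    ∃ T : Finset G, T ⊆ S ∧ ∀ f : G → K, (∀ P, f (-P) = f P) →
      ∑ P ∈ S, f P = ∑ P ∈ T, f P + ∑ P ∈ T, f P := by
  induction hn : S.card using Nat.strong_induction_on generalizing S with
  | _ n ih =>
    rcases S.eq_empty_or_nonempty with rfl | ⟨P₁, hP₁⟩
    · exact ⟨∅, le_rfl, fun f _ => by simp⟩
    · set S' := (S.erase P₁).erase (-P₁) with hS'
      have hsub : S' ⊆ S := (Finset.erase_subset _ _).trans (Finset.erase_subset _ _)
      have hcard : S'.card < n := by
        rw [← hn]
        apply Finset.card_lt_card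
        refine ⟨hsub, fun h => ?_⟩
        have := h hP₁
        rw [hS', Finset.mem_erase, Finset.mem_erase] at this
        exact this.2.1 rfl
      obtain ⟨T', hT', hsum⟩ := ih S'.card hcard S' (erase_pair_neg_mem S hneg P₁)
        (fun P hP => hne P (hsub hP)) rfl
      have hP₁T : P₁ ∉ T' := by
        intro h
        have := hT' h
        rw [hS', Finset.mem_erase, Finset.mem_erase] at this
        exact this.2.1 rfl
      refine ⟨insert P₁ T', ?_, ?_⟩
      · intro P hP
        rcases Finset.mem_insert.mp hP with rfl | hP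
        · exact hP₁
        · exact hsub (hT' hP)
      · intro f hf
        rw [sum_erase_pair S hneg hne hP₁ f hf, hsum f hf, Finset.sum_insert hP₁T]
        abel

/-- a half-system containing a prescribed point -/
theorem exists_half_pt (S : Finset G) (hneg : ∀ P ∈ S, -P ∈ S) (hne : ∀ P ∈ S, -P ≠ P)
    {P₁ : G} (hP₁ : P₁ ∈ S) :
    ∃ T : Finset G, T ⊆ S ∧ P₁ ∉ T ∧ -P₁ ∉ T ∧ ∀ f : G → K, (∀ P, f (-P) = f P) →
      ∑ P ∈ S, f P = (f P₁ + ∑ P ∈ T, f P) + (f P₁ + ∑ P ∈ T, f P) := by
  set S' := (S.erase P₁).erase (-P₁) with hS'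
  have hsub : S' ⊆ S := (Finset.erase_subset _ _).trans (Finset.erase_subset _ _)
  obtain ⟨T', hT', hsum⟩ := exists_half (K := K) S' (erase_pair_neg_mem S hneg P₁)
    (fun P hP => hne P (hsub hP))
  refine ⟨T', hT'.trans hsub, ?_, ?_, ?_⟩
  · intro h
    have := hT' h
    rw [hS', Finset.mem_erase, Finset.mem_erase] at this
    exact this.2.1 rfl
  · intro h
    have := hT' h
    rw [hS', Finset.mem_erase] at this
    exact this.1 rfl
  · intro f hf
    rw [sum_erase_pair S hneg hne hP₁ f hf, hsum f hf]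
    abel

end Half

section Val

variable {K : Type*} [Field K] {G : Type*} [AddCommGroup G] [LinearOrder G] [IsOrderedAddMonoid G]
  {V : AVal K G}

/-- the valuation of a finite sum -/
lemma ge_sum {ι : Type*} (T : Finset ι) (f : ι → K) (c : G) (h : ∀ i ∈ T, V.Ge (f i) c) :
    V.Ge (∑ i ∈ T, f i) c := by
  classical
  induction T using Finset.induction_on with
  | empty => simpa using AVal.ge_zero'
  | insert a s ha ih =>
    rw [Finset.sum_insert ha]
    exact (h a (Finset.mem_insert_self a s)).add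
      (ih fun i hi => h i (Finset.mem_insert_of_mem hi))

/-- natural numbers are integral -/
lemma ge_natCast (V : AVal K G) (n : ℕ) : V.Ge (n : K) 0 := by
  induction n with
  | zero => simpa using AVal.ge_zero'
  | succ n ih =>
    rw [Nat.cast_succ]
    exact ih.add AVal.ex_one.ge

/-- numerals are integral -/
lemma ge_ofNat (V : AVal K G) (n : ℕ) [n.AtLeastTwo] :
    V.Ge (no_index (OfNat.ofNat n) : K) 0 := by
  exact ge_natCast V n

end Val

end Fermat.Agent.MultRed.Comp
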