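import Fermat.Agent.S05.H65.Core

/-!
# Lib/MultRed/Comp/Core: the component function near a node, every residue characteristic

Abstract valuation computations for the x-coordinates of `P ± Q` on a Weierstrass curve in the
nodal normal form `y² + a₁xy = x³ + a₂x² + a₆` (`b₄ = 0`, `b₆ = 4a₆`, `b₈ = b₂a₆`), with
`w b₂ = 0`, `w a₆ = 2h > 0` and `w 2 ≥ 0` (so residue characteristic `2` is allowed):

* `(r₁ + r₂) (x₁ - x₂)² = x₁x₂(b₂ + 2(x₁ + x₂)) + 4a₆`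
* `(r₁ r₂) (x₁ - x₂)² = x₁²x₂² - a₆(b₂ + 4(x₁ + x₂))`

imply `Rel h (cl x₁) (cl x₂) (cl r₁) (cl r₂)` (`cl`, `Rel` of `S05/H65/Core.lean`).
Owner: helper45 (cluster E', seat E-L).
-/

set_option autoImplicit false

namespace Fermat.Agent.MultRed.Comp

open S05H65 S05H65.AVal

variable {K : Type*} [Field K] {G : Type*} [AddCommGroup G] [LinearOrder G] [IsOrderedAddMonoid G]

/-- Basic hypotheses on the parameters of the nodal normal form. -/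
structure CoreN (V : AVal K G) (b₂ a₆ : K) (h : G) : Prop where
  h2 : V.Ge (2 : K) 0
  hb₂ : V.Ex b₂ 0
  ha₆ : V.Ex a₆ (h + h)
  hh : 0 < h

variable {V : AVal K G} {b₂ a₆ : K} {h : G}

namespace CoreN

variable (C : CoreN V b₂ a₆ h)
include C

lemma ge_four : V.Ge (4 : K) 0 := by
  have h1 := C.h2.mul C.h2
  rw [show (2 : K) * 2 = 4 by norm_num, add_zero] at h1
  exact h1

lemma ge_eight : V.Ge (8 : K) 0 := by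
  have h1 := C.h2.mul C.ge_four
  rw [show (2 : K) * 4 = 8 by norm_num, add_zero] at h1
  exact h1

lemma ge_four_a₆ : V.Ge (4 * a₆) (h + h) := by
  have h1 := C.ge_four.mul C.ha₆.ge
  rwa [zero_add] at h1

lemma ex_b₂a₆ : V.Ex (b₂ * a₆) (h + h) := by
  have h1 := C.hb₂.mul C.ha₆
  rwa [zero_add] at h1

end CoreN

section Main

variable (C : CoreN V b₂ a₆ h) {x₁ x₂ r₁ r₂ : K}
include C

/-- For `x₁, x₂` in the maximal ideal, `b₂ + 2(x₁ + x₂)` is a unit. -/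
lemma ex_U (g1 : V.Gt x₁ 0) (g2 : V.Gt x₂ 0) : V.Ex (b₂ + 2 * (x₁ + x₂)) 0 :=
  C.hb₂.add_gt ((C.h2.mul_gt (g1.add g2)).mono (by grind))

/-- For `x₁, x₂` in the maximal ideal, `b₂ + 4(x₁ + x₂)` is a unit. -/
lemma ex_U' (g1 : V.Gt x₁ 0) (g2 : V.Gt x₂ 0) : V.Ex (b₂ + 4 * (x₁ + x₂)) 0 :=
  C.hb₂.add_gt ((C.ge_four.mul_gt (g1.add g2)).mono (by grind))

lemma ex_second (g1 : V.Gt x₁ 0) (g2 : V.Gt x₂ 0) :
    V.Ex (a₆ * (b₂ + 4 * (x₁ + x₂))) (h + h) :=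
  (C.ha₆.mul (ex_U' C g1 g2)).congr (by grind)

/-- Case (L,L): both points in the identity component. -/
lemma case_LL {α₁ α₂ : G} (h1 : V.Ex x₁ α₁) (h2 : V.Ex x₂ α₂) (hα₁ : α₁ ≤ 0) (hα₂ : α₂ ≤ 0)
    (hne : x₁ ≠ x₂)
    (hS : (r₁ + r₂) * (x₁ - x₂) ^ 2 = x₁ * x₂ * (b₂ + 2 * (x₁ + x₂)) + 4 * a₆)
    (hP : (r₁ * r₂) * (x₁ - x₂) ^ 2 = x₁ ^ 2 * x₂ ^ 2 - a₆ * (b₂ + 4 * (x₁ + x₂))) :
    V.NotM r₁ ∧ V.NotM r₂ := by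
  have hh := C.hh
  set m := min α₁ α₂ with hm
  have hd0 : x₁ - x₂ ≠ 0 := sub_ne_zero.mpr hne
  have hdge : V.Ge (x₁ - x₂) m := (h1.ge' (by grind)).sub (h2.ge' (by grind))
  have hd : m ≤ V.w (x₁ - x₂) := hdge.le_of_ne hd0
  have hD : V.Ex ((x₁ - x₂) ^ 2) (V.w (x₁ - x₂) + V.w (x₁ - x₂)) := (ex_of_ne hd0).sq
  have h12 : V.Ex (x₁ * x₂) (α₁ + α₂) := h1.mul h2
  have hsq : V.Ex (x₁ ^ 2 * x₂ ^ 2) (α₁ + α₁ + (α₂ + α₂)) := h1.sq.mul h2.sq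
  have hsum : V.Ge (x₁ + x₂) m := (h1.ge' (by grind)).add (h2.ge' (by grind))
  have hU : V.Ge (b₂ + 2 * (x₁ + x₂)) m :=
    (C.hb₂.ge' (by grind)).add ((C.h2.mul hsum).mono (by grind))
  have hU' : V.Ge (b₂ + 4 * (x₁ + x₂)) m :=
    (C.hb₂.ge' (by grind)).add ((C.ge_four.mul hsum).mono (by grind))
  have hnP : V.Ex (x₁ ^ 2 * x₂ ^ 2 - a₆ * (b₂ + 4 * (x₁ + x₂))) (α₁ + α₁ + (α₂ + α₂)) :=
    hsq.sub_gt ((C.ha₆.mul_ge hU').gt (by grind))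
  have hnS : V.Ge (x₁ * x₂ * (b₂ + 2 * (x₁ + x₂)) + 4 * a₆) (α₁ + α₂ + m) :=
    (h12.mul_ge hU).add (C.ge_four_a₆.mono (by grind))
  have hSe := eq_div_sq hne hS
  have hPe := eq_div_sq hne hP
  have hPi := hnP.div hD
  have hSi := hnS.div hD
  exact vieta_high hSe hPe (hSi.mono (by grind)) hPi (by grind)

/-- Case (L,M): first point in the identity component, second near the node (not deep). -/
lemma case_LM {α₁ β : G} (h1 : V.Ex x₁ α₁) (h2 : V.Ex x₂ β) (hα₁ : α₁ ≤ 0) (hβ0 : 0 < β)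
    (hβh : β < h) (hne : x₁ ≠ x₂)
    (hS : (r₁ + r₂) * (x₁ - x₂) ^ 2 = x₁ * x₂ * (b₂ + 2 * (x₁ + x₂)) + 4 * a₆)
    (hP : (r₁ * r₂) * (x₁ - x₂) ^ 2 = x₁ ^ 2 * x₂ ^ 2 - a₆ * (b₂ + 4 * (x₁ + x₂))) :
    V.Ex r₁ β ∧ V.Ex r₂ β := by
  have hh := C.hh
  have hd : V.Ex (x₁ - x₂) α₁ := h1.sub_gt (h2.gt' (by grind))
  have hD : V.Ex ((x₁ - x₂) ^ 2) (α₁ + α₁) := hd.sq
  have h12 : V.Ex (x₁ * x₂) (α₁ + β) := h1.mul h2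
  have hsq : V.Ex (x₁ ^ 2 * x₂ ^ 2) (α₁ + α₁ + (β + β)) := h1.sq.mul h2.sq
  have hsum : V.Ge (x₁ + x₂) α₁ := h1.ge.add (h2.ge' (by grind))
  have hU : V.Ge (b₂ + 2 * (x₁ + x₂)) α₁ :=
    (C.hb₂.ge' (by grind)).add ((C.h2.mul hsum).mono (by grind))
  have hU' : V.Ge (b₂ + 4 * (x₁ + x₂)) α₁ :=
    (C.hb₂.ge' (by grind)).add ((C.ge_four.mul hsum).mono (by grind))
  have hnP : V.Ex (x₁ ^ 2 * x₂ ^ 2 - a₆ * (b₂ + 4 * (x₁ + x₂))) (α₁ + α₁ + (β + β)) :=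
    hsq.sub_gt ((C.ha₆.mul_ge hU').gt (by grind))
  have hnS : V.Ge (x₁ * x₂ * (b₂ + 2 * (x₁ + x₂)) + 4 * a₆) (α₁ + β + α₁) :=
    (h12.mul_ge hU).add (C.ge_four_a₆.mono (by grind))
  have hSe := eq_div_sq hne hS
  have hPe := eq_div_sq hne hP
  have hPi := hnP.div hD
  have hSi := hnS.div hD
  exact vieta_eq hSe hPe (hSi.mono (by grind)) (hPi.congr (by grind))

/-- Case (L,R): first point in the identity component, second deep near the node. -/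
lemma case_LR {α₁ : G} (h1 : V.Ex x₁ α₁) (h2 : V.Ge x₂ h) (hα₁ : α₁ ≤ 0) (hne : x₁ ≠ x₂)
    (hS : (r₁ + r₂) * (x₁ - x₂) ^ 2 = x₁ * x₂ * (b₂ + 2 * (x₁ + x₂)) + 4 * a₆)
    (hP : (r₁ * r₂) * (x₁ - x₂) ^ 2 = x₁ ^ 2 * x₂ ^ 2 - a₆ * (b₂ + 4 * (x₁ + x₂))) :
    V.Ge r₁ h ∧ V.Ge r₂ h := by
  have hh := C.hh
  have hd : V.Ex (x₁ - x₂) α₁ := h1.sub_gt (h2.gt (by grind))
  have hD : V.Ex ((x₁ - x₂) ^ 2) (α₁ + α₁) := hd.sq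
  have h12 : V.Ge (x₁ * x₂) (α₁ + h) := h1.ge.mul h2
  have hsq : V.Ge (x₁ ^ 2 * x₂ ^ 2) (α₁ + α₁ + (h + h)) := h1.sq.ge.mul h2.sq
  have hsum : V.Ge (x₁ + x₂) α₁ := h1.ge.add (h2.mono (by grind))
  have hU : V.Ge (b₂ + 2 * (x₁ + x₂)) α₁ :=
    (C.hb₂.ge' (by grind)).add ((C.h2.mul hsum).mono (by grind))
  have hU' : V.Ge (b₂ + 4 * (x₁ + x₂)) α₁ :=
    (C.hb₂.ge' (by grind)).add ((C.ge_four.mul hsum).mono (by grind))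
  have hnP : V.Ge (x₁ ^ 2 * x₂ ^ 2 - a₆ * (b₂ + 4 * (x₁ + x₂))) (α₁ + α₁ + (h + h)) :=
    hsq.sub ((C.ha₆.mul_ge hU').mono (by grind))
  have hnS : V.Ge (x₁ * x₂ * (b₂ + 2 * (x₁ + x₂)) + 4 * a₆) (α₁ + h + α₁) :=
    (h12.mul hU).add (C.ge_four_a₆.mono (by grind))
  have hSe := eq_div_sq hne hS
  have hPe := eq_div_sq hne hP
  have hPi := hnP.div hD
  have hSi := hnS.div hD
  exact vieta_low hSe hPe (hSi.mono (by grind)) (hPi.mono (by grind))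

/-- Case (M,M) with `α₁ < α₂`. -/
lemma case_MM_lt {α₁ α₂ : G} (h1 : V.Ex x₁ α₁) (h2 : V.Ex x₂ α₂) (hα₁ : 0 < α₁)
    (hlt : α₁ < α₂) (hα₂ : α₂ < h) (hne : x₁ ≠ x₂)
    (hS : (r₁ + r₂) * (x₁ - x₂) ^ 2 = x₁ * x₂ * (b₂ + 2 * (x₁ + x₂)) + 4 * a₆)
    (hP : (r₁ * r₂) * (x₁ - x₂) ^ 2 = x₁ ^ 2 * x₂ ^ 2 - a₆ * (b₂ + 4 * (x₁ + x₂))) :
    AVal.Rel h α₁ α₂ (V.cl h r₁) (V.cl h r₂) := by
  have hh := C.hh
  have g1 : V.Gt x₁ 0 := h1.gt' hα₁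
  have g2 : V.Gt x₂ 0 := h2.gt' (by grind)
  have hd : V.Ex (x₁ - x₂) α₁ := h1.sub_gt (h2.gt' hlt)
  have hD : V.Ex ((x₁ - x₂) ^ 2) (α₁ + α₁) := hd.sq
  have h12 : V.Ex (x₁ * x₂) (α₁ + α₂) := h1.mul h2
  have hsq : V.Ex (x₁ ^ 2 * x₂ ^ 2) (α₁ + α₁ + (α₂ + α₂)) := h1.sq.mul h2.sq
  have hnS : V.Ex (x₁ * x₂ * (b₂ + 2 * (x₁ + x₂)) + 4 * a₆) (α₁ + α₂ + 0) :=
    (h12.mul (ex_U C g1 g2)).add_gt (C.ge_four_a₆.gt (by grind))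
  have h2nd := ex_second C g1 g2
  have hSe := eq_div_sq hne hS
  have hPe := eq_div_sq hne hP
  have hSi := (hnS.div hD).congr (show α₁ + α₂ + 0 - (α₁ + α₁) = α₂ - α₁ by grind)
  rcases lt_trichotomy (α₁ + α₂) h with hlt' | heq | hgt
  · have hnP : V.Ex (x₁ ^ 2 * x₂ ^ 2 - a₆ * (b₂ + 4 * (x₁ + x₂))) (α₁ + α₁ + (α₂ + α₂)) :=
      hsq.sub_gt (h2nd.gt' (by grind))
    have hPi := hnP.div hD
    rcases vieta_split hSe hPe hSi hPi (by grind) with ⟨hr1, hr2⟩ | ⟨hr2, hr1⟩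
    · rw [cl_of_ex hr1, cl_of_ex hr2]; unfold AVal.Rel; grind
    · rw [cl_of_ex hr1, cl_of_ex hr2]; unfold AVal.Rel; grind
  · have hnP : V.Ge (x₁ ^ 2 * x₂ ^ 2 - a₆ * (b₂ + 4 * (x₁ + x₂))) (h + h) :=
      (hsq.ge' (by grind)).sub h2nd.ge
    have hPi := hnP.div hD
    rcases vieta_split_le hSe hPe hSi hPi (by grind) with ⟨hr1, hr2⟩ | ⟨hr2, hr1⟩
    · rw [cl_of_ex hr1, cl_of_ge hh (hr2.mono (by grind))]; unfold AVal.Rel; grind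
    · rw [cl_of_ge hh (hr1.mono (by grind)), cl_of_ex hr2]; unfold AVal.Rel; grind
  · have hnP : V.Ex (x₁ ^ 2 * x₂ ^ 2 - a₆ * (b₂ + 4 * (x₁ + x₂))) (h + h) :=
      h2nd.gt_sub (hsq.gt' (by grind))
    have hPi := hnP.div hD
    rcases vieta_split hSe hPe hSi hPi (by grind) with ⟨hr1, hr2⟩ | ⟨hr2, hr1⟩
    · rw [cl_of_ex hr1, cl_of_ex hr2]; unfold AVal.Rel; grind
    · rw [cl_of_ex hr1, cl_of_ex hr2]; unfold AVal.Rel; grind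

/-- Case (M,M) with `α₁ = α₂`. -/
lemma case_MM_eq {α : G} (h1 : V.Ex x₁ α) (h2 : V.Ex x₂ α) (hα₁ : 0 < α)
    (hα₂ : α < h) (hne : x₁ ≠ x₂)
    (hS : (r₁ + r₂) * (x₁ - x₂) ^ 2 = x₁ * x₂ * (b₂ + 2 * (x₁ + x₂)) + 4 * a₆)
    (hP : (r₁ * r₂) * (x₁ - x₂) ^ 2 = x₁ ^ 2 * x₂ ^ 2 - a₆ * (b₂ + 4 * (x₁ + x₂))) :
    AVal.Rel h α α (V.cl h r₁) (V.cl h r₂) := by
  have hh := C.hh
  have g1 : V.Gt x₁ 0 := h1.gt' hα₁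
  have g2 : V.Gt x₂ 0 := h2.gt' hα₁
  have hd0 : x₁ - x₂ ≠ 0 := sub_ne_zero.mpr hne
  have hdge : V.Ge (x₁ - x₂) α := h1.ge.sub h2.ge
  have hd : α ≤ V.w (x₁ - x₂) := hdge.le_of_ne hd0
  have hD : V.Ex ((x₁ - x₂) ^ 2) (V.w (x₁ - x₂) + V.w (x₁ - x₂)) := (ex_of_ne hd0).sq
  have h12 : V.Ex (x₁ * x₂) (α + α) := h1.mul h2
  have hsq : V.Ex (x₁ ^ 2 * x₂ ^ 2) (α + α + (α + α)) := h1.sq.mul h2.sq
  have hnS : V.Ex (x₁ * x₂ * (b₂ + 2 * (x₁ + x₂)) + 4 * a₆) (α + α + 0) :=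
    (h12.mul (ex_U C g1 g2)).add_gt (C.ge_four_a₆.gt (by grind))
  have h2nd := ex_second C g1 g2
  have hSe := eq_div_sq hne hS
  have hPe := eq_div_sq hne hP
  have hSi := hnS.div hD
  rcases lt_trichotomy (α + α) h with hlt' | heq | hgt
  · have hnP : V.Ex (x₁ ^ 2 * x₂ ^ 2 - a₆ * (b₂ + 4 * (x₁ + x₂))) (α + α + (α + α)) :=
      hsq.sub_gt (h2nd.gt' (by grind))
    have hPi := hnP.div hD
    rcases vieta_split hSe hPe hSi hPi (by grind) with ⟨hr1, hr2⟩ | ⟨hr2, hr1⟩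
    · rw [cl_of_ex hr1, cl_of_ex hr2]; unfold AVal.Rel; grind
    · rw [cl_of_ex hr1, cl_of_ex hr2]; unfold AVal.Rel; grind
  · have hnP : V.Ge (x₁ ^ 2 * x₂ ^ 2 - a₆ * (b₂ + 4 * (x₁ + x₂))) (h + h) :=
      (hsq.ge' (by grind)).sub h2nd.ge
    have hPi := hnP.div hD
    rcases vieta_split_le hSe hPe hSi hPi (by grind) with ⟨hr1, hr2⟩ | ⟨hr2, hr1⟩
    · rw [cl_of_ex hr1, cl_of_ge hh (hr2.mono (by grind))]; unfold AVal.Rel; grind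
    · rw [cl_of_ge hh (hr1.mono (by grind)), cl_of_ex hr2]; unfold AVal.Rel; grind
  · have hnP : V.Ex (x₁ ^ 2 * x₂ ^ 2 - a₆ * (b₂ + 4 * (x₁ + x₂))) (h + h) :=
      h2nd.gt_sub (hsq.gt' (by grind))
    have hPi := hnP.div hD
    rcases vieta_split hSe hPe hSi hPi (by grind) with ⟨hr1, hr2⟩ | ⟨hr2, hr1⟩
    · rw [cl_of_ex hr1, cl_of_ex hr2]; unfold AVal.Rel; grind
    · rw [cl_of_ex hr1, cl_of_ex hr2]; unfold AVal.Rel; grind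

/-- Case (M,R). -/
lemma case_MR {α : G} (h1 : V.Ex x₁ α) (h2 : V.Ge x₂ h) (hα₁ : 0 < α)
    (hα₂ : α < h) (hne : x₁ ≠ x₂)
    (hS : (r₁ + r₂) * (x₁ - x₂) ^ 2 = x₁ * x₂ * (b₂ + 2 * (x₁ + x₂)) + 4 * a₆)
    (hP : (r₁ * r₂) * (x₁ - x₂) ^ 2 = x₁ ^ 2 * x₂ ^ 2 - a₆ * (b₂ + 4 * (x₁ + x₂))) :
    V.Ex r₁ (h - α) ∧ V.Ex r₂ (h - α) := by
  have hh := C.hh
  have g1 : V.Gt x₁ 0 := h1.gt' hα₁
  have g2 : V.Gt x₂ 0 := h2.gt hh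
  have hd : V.Ex (x₁ - x₂) α := h1.sub_gt (h2.gt hα₂)
  have hD : V.Ex ((x₁ - x₂) ^ 2) (α + α) := hd.sq
  have h12 : V.Ge (x₁ * x₂) (α + h) := h1.ge.mul h2
  have hsq : V.Ge (x₁ ^ 2 * x₂ ^ 2) (α + α + (h + h)) := h1.sq.ge.mul h2.sq
  have hnS : V.Ge (x₁ * x₂ * (b₂ + 2 * (x₁ + x₂)) + 4 * a₆) (α + h + 0) :=
    (h12.mul (ex_U C g1 g2).ge).add (C.ge_four_a₆.mono (by grind))
  have h2nd := ex_second C g1 g2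
  have hnP : V.Ex (x₁ ^ 2 * x₂ ^ 2 - a₆ * (b₂ + 4 * (x₁ + x₂))) (h + h) :=
    h2nd.gt_sub (hsq.gt (by grind))
  have hSe := eq_div_sq hne hS
  have hPe := eq_div_sq hne hP
  have hSi := hnS.div hD
  have hPi := hnP.div hD
  exact vieta_eq hSe hPe (hSi.mono (by grind)) (hPi.congr (by grind))

/-- Case (R,R). -/
lemma case_RR (h1 : V.Ge x₁ h) (h2 : V.Ge x₂ h) (hne : x₁ ≠ x₂)
    (hS : (r₁ + r₂) * (x₁ - x₂) ^ 2 = x₁ * x₂ * (b₂ + 2 * (x₁ + x₂)) + 4 * a₆)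
    (hP : (r₁ * r₂) * (x₁ - x₂) ^ 2 = x₁ ^ 2 * x₂ ^ 2 - a₆ * (b₂ + 4 * (x₁ + x₂))) :
    V.NotM r₁ ∧ V.NotM r₂ := by
  have hh := C.hh
  have g1 : V.Gt x₁ 0 := h1.gt hh
  have g2 : V.Gt x₂ 0 := h2.gt hh
  have hd0 : x₁ - x₂ ≠ 0 := sub_ne_zero.mpr hne
  have hdge : V.Ge (x₁ - x₂) h := h1.sub h2
  have hd : h ≤ V.w (x₁ - x₂) := hdge.le_of_ne hd0
  have hD : V.Ex ((x₁ - x₂) ^ 2) (V.w (x₁ - x₂) + V.w (x₁ - x₂)) := (ex_of_ne hd0).sq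
  have h12 : V.Ge (x₁ * x₂) (h + h) := h1.mul h2
  have hsq : V.Ge (x₁ ^ 2 * x₂ ^ 2) (h + h + (h + h)) := h1.sq.mul h2.sq
  have hnS : V.Ge (x₁ * x₂ * (b₂ + 2 * (x₁ + x₂)) + 4 * a₆) (h + h + 0) :=
    (h12.mul (ex_U C g1 g2).ge).add (C.ge_four_a₆.mono (by grind))
  have h2nd := ex_second C g1 g2
  have hnP : V.Ex (x₁ ^ 2 * x₂ ^ 2 - a₆ * (b₂ + 4 * (x₁ + x₂))) (h + h) :=
    h2nd.gt_sub (hsq.gt (by grind))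
  have hSe := eq_div_sq hne hS
  have hPe := eq_div_sq hne hP
  have hSi := hnS.div hD
  have hPi := hnP.div hD
  exact vieta_high hSe hPe (hSi.mono (by grind)) hPi (by grind)

/-- The main relation for two points with distinct `x`-coordinates. -/
theorem main_relN (hne : x₁ ≠ x₂)
    (hS : (r₁ + r₂) * (x₁ - x₂) ^ 2 = x₁ * x₂ * (b₂ + 2 * (x₁ + x₂)) + 4 * a₆)
    (hP : (r₁ * r₂) * (x₁ - x₂) ^ 2 = x₁ ^ 2 * x₂ ^ 2 - a₆ * (b₂ + 4 * (x₁ + x₂))) :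
    AVal.Rel h (V.cl h x₁) (V.cl h x₂) (V.cl h r₁) (V.cl h r₂) := by
  have hh := C.hh
  have hS' : (r₁ + r₂) * (x₂ - x₁) ^ 2 = x₂ * x₁ * (b₂ + 2 * (x₂ + x₁)) + 4 * a₆ := by
    rw [show (x₂ - x₁) ^ 2 = (x₁ - x₂) ^ 2 by ring, hS]; ring
  have hP' : (r₁ * r₂) * (x₂ - x₁) ^ 2 = x₂ ^ 2 * x₁ ^ 2 - a₆ * (b₂ + 4 * (x₂ + x₁)) := by
    rw [show (x₂ - x₁) ^ 2 = (x₁ - x₂) ^ 2 by ring, hP]; ring
  rcases regime V h x₁ with ⟨α₁, h1, hα₁⟩ | ⟨α₁, h1, hα₁, hα₁'⟩ | h1 <;>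
  rcases regime V h x₂ with ⟨α₂, h2, hα₂⟩ | ⟨α₂, h2, hα₂, hα₂'⟩ | h2
  · -- L L
    obtain ⟨hr1, hr2⟩ := case_LL C h1 h2 hα₁ hα₂ hne hS hP
    rw [cl_of_ex h1, cl_of_ex h2, cl_of_notM hh hr1, cl_of_notM hh hr2]
    unfold AVal.Rel; grind
  · -- L M
    obtain ⟨hr1, hr2⟩ := case_LM C h1 h2 hα₁ hα₂ hα₂' hne hS hP
    rw [cl_of_ex h1, cl_of_ex h2, cl_of_ex hr1, cl_of_ex hr2]
    unfold AVal.Rel; grind
  · -- L R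
    obtain ⟨hr1, hr2⟩ := case_LR C h1 h2 hα₁ hne hS hP
    rw [cl_of_ex h1, cl_of_ge hh h2, cl_of_ge hh hr1, cl_of_ge hh hr2]
    unfold AVal.Rel; grind
  · -- M L
    obtain ⟨hr1, hr2⟩ := case_LM C h2 h1 hα₂ hα₁ hα₁' hne.symm hS' hP'
    rw [cl_of_ex h1, cl_of_ex h2, cl_of_ex hr1, cl_of_ex hr2]
    unfold AVal.Rel; grind
  · -- M M
    rcases lt_trichotomy α₁ α₂ with hlt | heq | hgt
    · have := case_MM_lt C h1 h2 hα₁ hlt hα₂' hne hS hP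
      rw [cl_of_ex h1, cl_of_ex h2]
      unfold AVal.Rel at this ⊢; grind
    · subst heq
      have := case_MM_eq C h1 h2 hα₁ hα₁' hne hS hP
      rw [cl_of_ex h1, cl_of_ex h2]
      unfold AVal.Rel at this ⊢; grind
    · have := case_MM_lt C h2 h1 hα₂ hgt hα₁' hne.symm hS' hP'
      rw [cl_of_ex h1, cl_of_ex h2]
      unfold AVal.Rel at this ⊢; grind
  · -- M R
    obtain ⟨hr1, hr2⟩ := case_MR C h1 h2 hα₁ hα₁' hne hS hP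
    rw [cl_of_ex h1, cl_of_ge hh h2, cl_of_ex hr1, cl_of_ex hr2]
    unfold AVal.Rel; grind
  · -- R L
    obtain ⟨hr1, hr2⟩ := case_LR C h2 h1 hα₂ hne.symm hS' hP'
    rw [cl_of_ge hh h1, cl_of_ex h2, cl_of_ge hh hr1, cl_of_ge hh hr2]
    unfold AVal.Rel; grind
  · -- R M
    obtain ⟨hr1, hr2⟩ := case_MR C h2 h1 hα₂ hα₂' hne.symm hS' hP'
    rw [cl_of_ge hh h1, cl_of_ex h2, cl_of_ex hr1, cl_of_ex hr2]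
    unfold AVal.Rel; grind
  · -- R R
    obtain ⟨hr1, hr2⟩ := case_RR C h1 h2 hne hS hP
    rw [cl_of_ge hh h1, cl_of_ge hh h2, cl_of_notM hh hr1, cl_of_notM hh hr2]
    unfold AVal.Rel; grind

end Main

end Fermat.Agent.MultRed.Comp
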